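import Fermat.Agent.DeligneSerre.Periods.Algebra

/-!
# Characters of the Hecke algebra from congruent forms

A form of weight two all of whose diamond translates have integral coefficients, congruent to a
common eigen sequence, defines a character of the Hecke algebra.
-/

set_option autoImplicit false

noncomputable section

open scoped MatrixGroups
open ModularFormClass (qCoeff)

namespace FermatAgent.DeligneSerre.Periods

open X1 (gam)

attribute [local instance] finiteIndex_gam

variable {M : ℕ} [NeZero M] {k : Type} [Field k] (φ : integralClosure ℤ ℂ →+* k)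
  (e : (ZMod M)ˣ →* k) (c : ℕ → k)

/-- All diamond translates of `h` have integral coefficients, and `⟨d⟩ h ≡ lam · e d · c`. -/
def HasCong (h : S2 M) (lam : k) : Prop :=
  ∀ (d : (ZMod M)ˣ) (n : ℕ),
    ∃ x : integralClosure ℤ ℂ, (x : ℂ) = qCoeff (⇑(dia d h)) n ∧ φ x = lam * (e d * c n)

variable {φ e c}

theorem hasCong_zero : HasCong φ e c (0 : S2 M) 0 := fun d n =>
  ⟨0, by
    rw [map_zero, FunLike.coe_zero, ModularFormClass.qCoeff, UpperHalfPlane.qExpansion_zero]
    simp, by simp⟩

omit [NeZero M] in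
theorem qCoeff_S2_add (f g : S2 M) (n : ℕ) :
    qCoeff (⇑(f + g)) n = qCoeff (⇑f) n + qCoeff (⇑g) n := by
  rw [FunLike.coe_add]
  exact qCoeff_add_of (periodic_S2 f) (CuspFormClass.holo f) (bdd_S2 f) (periodic_S2 g)
    (CuspFormClass.holo g) (bdd_S2 g) n

omit [NeZero M] in
theorem qCoeff_S2_neg (f : S2 M) (n : ℕ) : qCoeff (⇑(-f)) n = -qCoeff (⇑f) n := by
  have h := qCoeff_S2_add f (-f) n
  rw [add_neg_cancel, FunLike.coe_zero, ModularFormClass.qCoeff,
    UpperHalfPlane.qExpansion_zero, map_zero] at h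
  linear_combination -h

theorem HasCong.add {h h' : S2 M} {lam lam' : k} (H : HasCong φ e c h lam)
    (H' : HasCong φ e c h' lam') : HasCong φ e c (h + h') (lam + lam') := fun d n => by
  obtain ⟨x, hx, hx'⟩ := H d n
  obtain ⟨y, hy, hy'⟩ := H' d n
  refine ⟨x + y, ?_, by rw [map_add, hx', hy']; ring⟩
  rw [map_add, qCoeff_S2_add, ← hx, ← hy]
  rfl

theorem HasCong.neg {h : S2 M} {lam : k} (H : HasCong φ e c h lam) :
    HasCong φ e c (-h) (-lam) := fun d n => by
  obtain ⟨x, hx, hx'⟩ := H d n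
  refine ⟨-x, ?_, by rw [map_neg, hx']; ring⟩
  rw [map_neg, qCoeff_S2_neg, ← hx]
  rfl

theorem HasCong.dia {h : S2 M} {lam : k} (H : HasCong φ e c h lam) (d' : (ZMod M)ˣ) :
    HasCong φ e c (Periods.dia d' h) (e d' * lam) := fun d n => by
  obtain ⟨x, hx, hx'⟩ := H (d' * d) n
  refine ⟨x, by rw [dia_dia]; exact hx, ?_⟩
  rw [hx', map_mul]
  ring

/-- `c` is an eigen sequence: `c (n p) + p e(p) c (n / p) = a p * c n`. -/
def IsEigenSeq (e : (ZMod M)ˣ →* k) (c a : ℕ → k) : Prop :=
  ∀ (p : ℕ) (hp : p.Prime) (hpM : ¬ p ∣ M) (n : ℕ),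
    c (n * p) + (if p ∣ n then (p : k) * e (primeUnit hp hpM) * c (n / p) else 0) = a p * c n

theorem HasCong.tOp {a : ℕ → k} (ha : IsEigenSeq e c a) {h : S2 M} {lam : k}
    (H : HasCong φ e c h lam) {p : ℕ} (hp : p.Prime) (hpM : ¬ p ∣ M) :
    HasCong φ e c (Periods.tOp hp hpM h) (a p * lam) := fun d n => by
  have hc : Periods.dia d (Periods.tOp hp hpM h) = Periods.tOp hp hpM (Periods.dia d h) :=
    (LinearMap.congr_fun (tOp_dia_comm hp hpM d).eq h).symm
  have hd : Periods.dia (primeUnit hp hpM) (Periods.dia d h) =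
      Periods.dia (d * primeUnit hp hpM) h := dia_dia _ _ h
  obtain ⟨x, hx, hx'⟩ := H d (n * p)
  obtain ⟨y, hy, hy'⟩ := H (d * primeUnit hp hpM) (n / p)
  refine ⟨x + if p ∣ n then (p : integralClosure ℤ ℂ) * y else 0, ?_, ?_⟩
  · rw [hc, qCoeff_tOp, hd, ← hx, ← hy]
    split_ifs <;> simp
  · rw [map_add, apply_ite φ, map_mul, map_natCast, map_zero, hx', hy', map_mul]
    have h1 := congrArg (fun z => lam * e d * z) (ha p hp hpM n)
    split_ifs with hpn
    · simp only [if_pos hpn] at h1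
      linear_combination h1
    · simp only [if_neg hpn] at h1
      linear_combination h1

/-- The character of the Hecke algebra. -/
theorem exists_character {a : ℕ → k} (ha : IsEigenSeq e c a) (g : S2 M)
    (hg : HasCong φ e c g 1) (hc : ∃ n, c n ≠ 0) :
    ∃ χ : heckeRing M →+* k,
      (∀ (p : ℕ) (hp : p.Prime) (hpM : ¬ p ∣ M), χ (heckeT hp hpM) = a p) ∧
      ∀ d : (ZMod M)ˣ, χ (heckeD d) = e d := by
  have key : ∀ t ∈ heckeRing M, ∃ μ : k, ∀ (h : S2 M) (lam : k),
      HasCong φ e c h lam → HasCong φ e c (t h) (μ * lam) := by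
    intro t ht
    induction ht using Subring.closure_induction with
    | mem t ht =>
      rcases ht with ⟨p, hp, hpM, rfl⟩ | ⟨d, rfl⟩
      · exact ⟨a p, fun h lam H => H.tOp ha hp hpM⟩
      · exact ⟨e d, fun h lam H => H.dia d⟩
    | zero => exact ⟨0, fun h lam H => by simpa using hasCong_zero (φ := φ) (e := e) (c := c)⟩
    | one => exact ⟨1, fun h lam H => by simpa using H⟩
    | add x y _ _ hx hy =>
      obtain ⟨μ, hμ⟩ := hx
      obtain ⟨ν, hν⟩ := hy
      exact ⟨μ + ν, fun h lam H => by simpa [add_mul] using (hμ h lam H).add (hν h lam H)⟩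
    | neg x _ hx =>
      obtain ⟨μ, hμ⟩ := hx
      exact ⟨-μ, fun h lam H => by simpa using (hμ h lam H).neg⟩
    | mul x y _ _ hx hy =>
      obtain ⟨μ, hμ⟩ := hx
      obtain ⟨ν, hν⟩ := hy
      exact ⟨μ * ν, fun h lam H => by simpa [mul_assoc] using hμ _ _ (hν h lam H)⟩
  have uniq : ∀ {h : S2 M} {lam lam' : k}, HasCong φ e c h lam → HasCong φ e c h lam' →
      lam = lam' := by
    intro h lam lam' H H'
    obtain ⟨n, hn⟩ := hc
    obtain ⟨x, hx, hx'⟩ := H 1 n
    obtain ⟨y, hy, hy'⟩ := H' 1 n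
    obtain rfl : x = y := Subtype.ext (hx.trans hy.symm)
    have := hx'.symm.trans hy'
    rw [map_one, one_mul] at this
    exact mul_right_cancel₀ hn this
  choose μ hμ using fun t : heckeRing M => key t.1 t.2
  have hμ' : ∀ t {lam : k}, HasCong φ e c (t.1 g) lam → μ t = lam := fun t {lam} H => by
    have := uniq (hμ t g 1 hg) H
    rwa [mul_one] at this
  refine ⟨{ toFun := μ
            map_one' := hμ' 1 hg
            map_mul' := fun s t => hμ' (s * t) (by
              simpa using hμ s _ _ (hμ t g 1 hg))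
            map_zero' := hμ' 0 hasCong_zero
            map_add' := fun s t => hμ' (s + t) (by
              simpa using (hμ s g 1 hg).add (hμ t g 1 hg)) }, fun p hp hpM => ?_, fun d => ?_⟩
  · exact hμ' (heckeT hp hpM) (by simpa [heckeT] using hg.tOp ha hp hpM)
  · exact hμ' (heckeD d) (by simpa [heckeD] using hg.dia d)

end FermatAgent.DeligneSerre.Periods
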