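import Fermat.Agent.DeligneSerre.X1.Basic
import Fermat.Agent.ModCurve.Group.Universal
import Fermat.Agent.Periods.HeckeHom

/-!
# Hecke correspondences on `±Γ₁(M)`

The correspondences `T_p` (`p ∤ M`) and `⟨d⟩`, and the operators they induce on the homomorphisms
killing elliptic and parabolic elements.
-/

set_option autoImplicit false

noncomputable section

open scoped MatrixGroups
open CongruenceSubgroup
open FermatAgent.Periods (HeckeCorr tRep upperRep diagRep tCorr tRep_sep det_tRep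
  trace_eq_of_intertwine trace_pow_sq_eq_four sum_eq_zero_of_cycle_sums)

namespace FermatAgent.DeligneSerre.Periods

open X1 (gam gam_le_gamma0)

variable {M : ℕ}

/-- The lower right entry modulo `M`. -/
def lr (M : ℕ) (g : SL(2, ℤ)) : ZMod M := ((g 1 1 : ℤ) : ZMod M)

theorem lr_mul {g h : SL(2, ℤ)} (hg : g ∈ Gamma0 M) : lr M (g * h) = lr M g * lr M h := by
  have e := congrFun (congrFun (Matrix.SpecialLinearGroup.coe_mul g h) 1) 1
  rw [Matrix.mul_apply, Fin.sum_univ_two] at e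
  rw [lr, e, Int.cast_add, Int.cast_mul, Int.cast_mul, Gamma0_mem.mp hg, zero_mul, zero_add]
  rfl

theorem lr_one : lr M 1 = 1 := by simp [lr]

theorem lr_inv_mul_self {g : SL(2, ℤ)} (hg : g ∈ Gamma0 M) : lr M g⁻¹ * lr M g = 1 := by
  rw [← lr_mul (inv_mem hg), inv_mul_cancel, lr_one]

theorem mem_gam_of_lr {g : SL(2, ℤ)} (hg : g ∈ Gamma0 M) (h : lr M g = 1 ∨ lr M g = -1) :
    g ∈ gam M := ⟨hg, h⟩

theorem exists_gamma0_lr [NeZero M] (d : (ZMod M)ˣ) :
    ∃ g : SL(2, ℤ), g ∈ Gamma0 M ∧ lr M g = d := by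
  have hco : IsCoprime ((d : ZMod M).val : ℤ) (M : ℤ) :=
    Int.isCoprime_iff_gcd_eq_one.mpr (by
      rw [Int.gcd_natCast_natCast]; exact ZMod.val_coe_unit_coprime d)
  obtain ⟨a, b, h⟩ := hco
  refine ⟨⟨!![a, -b; (M : ℤ), ((d : ZMod M).val : ℤ)], ?_⟩, Gamma0_mem.mpr (by simp), by simp [lr]⟩
  rw [Matrix.det_fin_two_of]
  linear_combination h

/-- An element of `Γ₀(M)` with lower right entry congruent to `d`. -/
def gamma0Lift [NeZero M] (d : (ZMod M)ˣ) : SL(2, ℤ) := (exists_gamma0_lr d).choose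

theorem gamma0Lift_mem [NeZero M] (d : (ZMod M)ˣ) : gamma0Lift d ∈ Gamma0 M :=
  (exists_gamma0_lr d).choose_spec.1

theorem lr_gamma0Lift [NeZero M] (d : (ZMod M)ˣ) : lr M (gamma0Lift d) = d :=
  (exists_gamma0_lr d).choose_spec.2

theorem conj_mem_gam {g h : SL(2, ℤ)} (hg : g ∈ Gamma0 M) (hh : h ∈ gam M) :
    g * h * g⁻¹ ∈ gam M := by
  refine mem_gam_of_lr (mul_mem (mul_mem hg hh.1) (inv_mem hg)) ?_
  have e : lr M (g * h * g⁻¹) = lr M h := by
    rw [lr_mul (mul_mem hg hh.1), lr_mul hg]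
    linear_combination lr M h * lr_inv_mul_self hg
  rw [e]
  exact hh.2

/-- Two elements of `Γ₀(M)` with the same lower right entry differ by an element of `gam M`. -/
theorem mul_inv_mem_gam {g h : SL(2, ℤ)} (hg : g ∈ Gamma0 M) (hh : h ∈ Gamma0 M)
    (e : lr M g = lr M h) : h * g⁻¹ ∈ gam M := by
  refine mem_gam_of_lr (mul_mem hh (inv_mem hg)) (Or.inl ?_)
  rw [lr_mul hh, ← e, mul_comm, lr_inv_mul_self hg]

theorem natCast_isUnit_of_not_dvd {p : ℕ} (hp : p.Prime) (hpM : ¬ p ∣ M) :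
    IsUnit (p : ZMod M) :=
  (ZMod.isUnit_iff_coprime p M).mpr (hp.coprime_iff_not_dvd.mpr hpM)

/-- `p` as a unit modulo `M`. -/
def primeUnit {p : ℕ} (hp : p.Prime) (hpM : ¬ p ∣ M) : (ZMod M)ˣ :=
  (natCast_isUnit_of_not_dvd hp hpM).unit

@[simp] theorem coe_primeUnit {p : ℕ} (hp : p.Prime) (hpM : ¬ p ∣ M) :
    (primeUnit hp hpM : ZMod M) = p := rfl

variable [NeZero M] {p : ℕ} (hp : p.Prime) (hpM : ¬ p ∣ M)

/-- The change of representatives from level `Γ₀(M)`. -/
def tFix : Option (ZMod p) → SL(2, ℤ)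
  | none => gamma0Lift (primeUnit hp hpM)
  | some _ => 1

theorem tFix_mem (i : Option (ZMod p)) : tFix hp hpM i ∈ Gamma0 M := by
  cases i with
  | none => exact gamma0Lift_mem _
  | some x => exact one_mem _

/-- Representatives of `T_p` on `±Γ₁(M)`. -/
def tRep1 (i : Option (ZMod p)) : Matrix (Fin 2) (Fin 2) ℤ :=
  (tFix hp hpM i : Matrix (Fin 2) (Fin 2) ℤ) * tRep p i

theorem det_tRep1 (i : Option (ZMod p)) : (tRep1 hp hpM i).det = p := by
  rw [tRep1, Matrix.det_mul, det_tRep, Matrix.SpecialLinearGroup.det_coe, one_mul]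

theorem tRep1_some (x : ZMod p) : tRep1 hp hpM (some x) = upperRep p (x.val : ℤ) := by
  simp [tRep1, tFix, tRep]

theorem tRep1_none :
    tRep1 hp hpM none =
      (gamma0Lift (primeUnit hp hpM) : Matrix (Fin 2) (Fin 2) ℤ) * diagRep p := rfl

theorem tRep1_entries (i : Option (ZMod p)) :
    ((tRep1 hp hpM i 1 0 : ℤ) : ZMod M) = 0 ∧ ((tRep1 hp hpM i 1 1 : ℤ) : ZMod M) = p := by
  cases i with
  | none =>
    have h0 := Gamma0_mem.mp (gamma0Lift_mem (primeUnit hp hpM))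
    have h1 := lr_gamma0Lift (primeUnit hp hpM)
    rw [lr, coe_primeUnit] at h1
    simp [tRep1_none, diagRep, Matrix.mul_apply, Fin.sum_univ_two, h0, h1]
  | some x => simp [tRep1_some, upperRep]

/-- The coset permutation is compatible with lower right entries. -/
theorem exists_tRep1_move {g : SL(2, ℤ)} (hg : g ∈ Gamma0 M) (i : Option (ZMod p)) :
    ∃ (j : Option (ZMod p)) (δ : SL(2, ℤ)), δ ∈ Gamma0 M ∧ lr M δ = lr M g ∧
      tRep1 hp hpM i * (g : Matrix (Fin 2) (Fin 2) ℤ) =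
        (δ : Matrix (Fin 2) (Fin 2) ℤ) * tRep1 hp hpM j := by
  obtain ⟨j, δ', h⟩ := (tCorr M hp hpM).exists_move ⟨g, hg⟩ i
  simp only [FermatAgent.Periods.tCorr_rep] at h
  have hδ : tFix hp hpM i * (δ' : SL(2, ℤ)) * (tFix hp hpM j)⁻¹ ∈ Gamma0 M :=
    mul_mem (mul_mem (tFix_mem hp hpM i) δ'.2) (inv_mem (tFix_mem hp hpM j))
  have hmul : tRep1 hp hpM i * (g : Matrix (Fin 2) (Fin 2) ℤ) =
      ((tFix hp hpM i * (δ' : SL(2, ℤ)) * (tFix hp hpM j)⁻¹ : SL(2, ℤ)) :
        Matrix (Fin 2) (Fin 2) ℤ) * tRep1 hp hpM j := by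
    simp only [tRep1]
    rw [mul_assoc, h, ← mul_assoc, ← mul_assoc, ← Matrix.SpecialLinearGroup.coe_mul,
      ← Matrix.SpecialLinearGroup.coe_mul, inv_mul_cancel_right]
  refine ⟨j, _, hδ, ?_, hmul⟩
  have e := congrArg (fun z : ℤ => (z : ZMod M)) (congrFun (congrFun hmul 1) 1)
  simp only [Matrix.mul_apply, Fin.sum_univ_two, Int.cast_add, Int.cast_mul,
    (tRep1_entries hp hpM i).1, (tRep1_entries hp hpM i).2, (tRep1_entries hp hpM j).2,
    Gamma0_mem.mp hδ, zero_mul, zero_add] at e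
  exact (natCast_isUnit_of_not_dvd hp hpM).mul_right_cancel
    (e.symm.trans (mul_comm _ _))

theorem tRep1_sep (δ : SL(2, ℤ)) (i j : Option (ZMod p))
    (h : tRep1 hp hpM i = (δ : Matrix (Fin 2) (Fin 2) ℤ) * tRep1 hp hpM j) : i = j := by
  refine tRep_sep hp ((tFix hp hpM i)⁻¹ * δ * tFix hp hpM j) i j ?_
  have := congrArg ((((tFix hp hpM i)⁻¹ : SL(2, ℤ)) : Matrix (Fin 2) (Fin 2) ℤ) * ·) h
  simp only [tRep1, ← mul_assoc, ← Matrix.SpecialLinearGroup.coe_mul, inv_mul_cancel,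
    Matrix.SpecialLinearGroup.coe_one, one_mul] at this
  exact this

/-- The correspondence `T_p` on `±Γ₁(M)`. -/
def tCorr1 : HeckeCorr (gam M) (Option (ZMod p)) where
  rep := tRep1 hp hpM
  det_ne i := by rw [det_tRep1]; exact_mod_cast hp.ne_zero
  exists_move γ i := by
    obtain ⟨j, δ, hδ, e, h⟩ := exists_tRep1_move hp hpM γ.2.1 i
    exact ⟨j, ⟨δ, mem_gam_of_lr hδ (e ▸ γ.2.2)⟩, h⟩
  rep_sep δ i j h := tRep1_sep hp hpM δ i j h

/-- The diamond correspondence. -/
def diaCorr (d : (ZMod M)ˣ) : HeckeCorr (gam M) Unit where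
  rep _ := (gamma0Lift d : Matrix (Fin 2) (Fin 2) ℤ)
  det_ne _ := by simp
  exists_move γ i := ⟨i, ⟨_, conj_mem_gam (gamma0Lift_mem d) γ.2⟩, by
    rw [← Matrix.SpecialLinearGroup.coe_mul, ← Matrix.SpecialLinearGroup.coe_mul,
      inv_mul_cancel_right]⟩
  rep_sep _ _ _ _ := rfl

section KEP

theorem trace_pow_sq_le_four {G : Matrix (Fin 2) (Fin 2) ℤ} (hdet : G.det = 1)
    (ht : G.trace ^ 2 ≤ 4) (m : ℕ) : (G ^ m).trace ^ 2 ≤ 4 := by
  rcases ht.lt_or_eq with hlt | heq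
  · have hch : G * G = G.trace • G - 1 := by
      rw [Matrix.det_fin_two] at hdet
      ext i j
      rw [Matrix.sub_apply, Matrix.smul_apply, smul_eq_mul, Matrix.mul_apply, Fin.sum_univ_two,
        Matrix.trace_fin_two]
      fin_cases i <;> fin_cases j <;> simp <;>
        first | linear_combination -hdet | linear_combination (0 : ℤ) * hdet
    set t := G.trace with ht'
    have key : ∀ m : ℕ, (G ^ m).trace ^ 2 + (G ^ (m + 1)).trace ^ 2 -
        t * (G ^ m).trace * (G ^ (m + 1)).trace = 4 - t ^ 2 := by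
      intro m
      induction m with
      | zero => simp [← ht']; ring
      | succ m ih =>
        have : G ^ (m + 1 + 1) = t • G ^ (m + 1) - G ^ m := by
          rw [pow_succ, pow_succ, mul_assoc, hch, mul_sub, mul_smul_comm, mul_one]
        rw [this, Matrix.trace_sub, Matrix.trace_smul, smul_eq_mul]
        linear_combination ih
    have h := key m
    have hpos : 0 < 4 - t ^ 2 := by linarith
    refine le_of_mul_le_mul_left ?_ hpos
    nlinarith [sq_nonneg (2 * (G ^ (m + 1)).trace - t * (G ^ m).trace), h]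
  · exact (trace_pow_sq_eq_four hdet heq m).le

variable {Γ : Subgroup SL(2, ℤ)} {A : Type*} [AddCommGroup A] {ι : Type} [Fintype ι]

theorem transfer_killsEP (D : HeckeCorr Γ ι) {φ : Additive Γ →+ A}
    (hφ : ModCurveGroup.KillsEP Γ φ) : ModCurveGroup.KillsEP Γ (D.transfer ℤ φ) := by
  intro γ hγ
  rw [HeckeCorr.transfer_apply]
  refine sum_eq_zero_of_cycle_sums (D.targetEquiv γ) _ fun i m hm => ?_
  rw [← (D.move_pow γ m i).2 φ]
  refine hφ _ ?_
  have hs := D.move_spec (γ ^ m) i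
  rw [(D.move_pow (A := A) γ m i).1, hm] at hs
  rw [← trace_eq_of_intertwine (D.det_ne i) hs, SubmonoidClass.coe_pow,
    Matrix.SpecialLinearGroup.coe_pow]
  exact trace_pow_sq_le_four (Matrix.SpecialLinearGroup.det_coe _) hγ m

variable (Γ A) in
/-- The homomorphisms killing elliptic and parabolic elements. -/
def kepHoms : AddSubgroup (Additive Γ →+ A) where
  carrier := {φ | ModCurveGroup.KillsEP Γ φ}
  zero_mem' _ _ := rfl
  add_mem' {φ ψ} hφ hψ γ hγ := by simp [hφ γ hγ, hψ γ hγ]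
  neg_mem' {φ} hφ γ hγ := by simp [hφ γ hγ]

/-- The transfer on `kepHoms`. -/
def kepTransfer (D : HeckeCorr Γ ι) : AddMonoid.End (kepHoms Γ A) :=
  ((D.transfer ℤ).toAddMonoidHom.comp (kepHoms Γ A).subtype).codRestrict _
    fun φ => transfer_killsEP D φ.2

end KEP

variable (A : Type*) [AddCommGroup A]

/-- `T_p` on the homomorphisms killing elliptic and parabolic elements. -/
def heckeKEP : AddMonoid.End (kepHoms (gam M) A) :=
  haveI : NeZero p := ⟨hp.ne_zero⟩
  kepTransfer (tCorr1 hp hpM)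

/-- `⟨d⟩` on the homomorphisms killing elliptic and parabolic elements. -/
def diaKEP (d : (ZMod M)ˣ) : AddMonoid.End (kepHoms (gam M) A) := kepTransfer (diaCorr d)

end FermatAgent.DeligneSerre.Periods
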