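import Fermat.Agent.DeligneSerre.Periods.Corr
import Fermat.Agent.ModCurve.Group.Rank

/-!
# Coordinates on the homomorphisms killing elliptic and parabolic elements

Finitely many elements `γ j` and integral homomorphisms `c j` express every such homomorphism,
with values in any group, as `∑ j, c j • φ (γ j)`.
-/

set_option autoImplicit false

noncomputable section

open scoped MatrixGroups
open CongruenceSubgroup

namespace FermatAgent.DeligneSerre.Periods

open X1 (gam gamma1_le_gam)
open ModCurveGroup

variable {M : ℕ}

instance containsNegOne_gam : ContainsNegOne (gam M) :=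
  ⟨mem_gam_of_lr (Gamma0_mem.mpr (by simp)) (Or.inr (by simp [lr]))⟩

theorem finiteIndex_gam [NeZero M] : (gam M).FiniteIndex :=
  Subgroup.finiteIndex_of_le (gamma1_le_gam M)

variable (Γ : Subgroup SL(2, ℤ)) [ContainsNegOne Γ] [Γ.FiniteIndex]

/-- Coordinates: a system `γ, c` dual to each other expressing every homomorphism. -/
structure KepCoords where
  /-- The rank. -/
  r : ℕ
  /-- The elements. -/
  pt : Fin r → Γ
  /-- The integral homomorphisms. -/
  coord : Fin r → kepHoms Γ ℤ
  coord_pt : ∀ i j, (coord j : Additive Γ →+ ℤ) (Additive.ofMul (pt i)) = if i = j then 1 else 0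
  expand : ∀ {A : Type} [AddCommGroup A] (φ : Additive Γ →+ A), KillsEP Γ φ → ∀ x : Additive Γ,
    φ x = ∑ j, (coord j : Additive Γ →+ ℤ) x • φ (Additive.ofMul (pt j))

theorem nonempty_kepCoords : Nonempty (KepCoords Γ) := by
  classical
  let ι := Module.Free.ChooseBasisIndex ℤ (HomologyLattice Γ)
  let b := (Module.Free.chooseBasis ℤ (HomologyLattice Γ)).reindex (Fintype.equivFin ι)
  choose g hg using fun j => homProj_surjective Γ (b j)
  refine ⟨⟨_, fun j => Additive.toMul (g j),
    fun j => ⟨(b.coord j).toAddMonoidHom.comp (homProj Γ), killsEP_comp_homProj Γ _⟩,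
    fun i j => ?_, fun {A} _ φ hφ x => ?_⟩⟩
  · show b.coord j (homProj Γ (g i)) = _
    rw [hg i, Module.Basis.coord_apply, Module.Basis.repr_self, Finsupp.single_apply]
  · have h := congrArg (homProjLift Γ hφ) (b.sum_repr (homProj Γ x))
    rw [map_sum, homProjLift_homProj] at h
    rw [← h]
    refine Finset.sum_congr rfl fun j _ => ?_
    rw [map_zsmul, ← hg j, homProjLift_homProj]
    rfl

/-- A choice of coordinates. -/
def kepCoords : KepCoords Γ := (nonempty_kepCoords Γ).some

end FermatAgent.DeligneSerre.Periods
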