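import Fermat.Agent.DeligneSerre.Periods.Map
import Fermat.Agent.GalRep.Construct.Algebra

/-!
# The Hecke algebra of `±Γ₁(M)` in weight two and its eigen homomorphisms

The algebra generated by `T_p` (`p ∤ M`) and the diamond operators is commutative and acts
faithfully on the lattice of periods, so each of its characters with values in a field is afforded
by a homomorphism on `±Γ₁(M)` killing elliptic and parabolic elements.
-/

set_option autoImplicit false

noncomputable section

open scoped MatrixGroups ModularForm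
open CongruenceSubgroup Matrix
open ModularFormClass (qCoeff)
open FermatAgent.Periods (HeckeCorr)

namespace FermatAgent.DeligneSerre.Periods

open X1 (gam)
open ModCurveGroup

attribute [local instance] finiteIndex_gam

variable {M : ℕ} [NeZero M]

theorem tOp_comm {p q : ℕ} (hp : p.Prime) (hq : q.Prime) (hpM : ¬ p ∣ M) (hqM : ¬ q ∣ M) :
    Commute (tOp (M := M) hp hpM) (tOp hq hqM) := by
  rcases eq_or_ne p q with rfl | hpq
  · exact Commute.refl _
  refine LinearMap.ext fun f => ext_qCoeff fun n => ?_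
  have hc : ∀ {r : ℕ} (hr : r.Prime) (hrM : ¬ r ∣ M) (d : (ZMod M)ˣ),
      dia d (tOp hr hrM f) = tOp hr hrM (dia d f) := fun hr hrM d =>
    (LinearMap.congr_fun (tOp_dia_comm hr hrM d).eq f).symm
  have hdd : dia (primeUnit hp hpM) (dia (primeUnit hq hqM) f) =
      dia (primeUnit hq hqM) (dia (primeUnit hp hpM) f) := by
    rw [dia_dia, dia_dia, mul_comm]
  have hco : Nat.Coprime q p := (Nat.coprime_primes hq hp).mpr hpq.symm
  have hpq' : ∀ m, (p ∣ m * q ↔ p ∣ m) ∧ (q ∣ m * p ↔ q ∣ m) := fun m =>
    ⟨hco.symm.dvd_mul_right, hco.dvd_mul_right⟩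
  show qCoeff (⇑(tOp hp hpM (tOp hq hqM f))) n = qCoeff (⇑(tOp hq hqM (tOp hp hpM f))) n
  simp only [qCoeff_tOp, hc, hdd, (hpq' n).1, (hpq' n).2]
  have hm : ∀ {a b : ℕ}, a ∣ n → n * b / a = n / a * b := fun {a b} h => by
    obtain ⟨t, rfl⟩ := h
    rcases Nat.eq_zero_or_pos a with rfl | ha
    · simp
    · rw [Nat.mul_div_cancel_left _ ha, mul_assoc, Nat.mul_div_cancel_left _ ha]
  by_cases hpn : p ∣ n <;> by_cases hqn : q ∣ n
  · have h1 : q ∣ n / p := by
      obtain ⟨t, rfl⟩ := hpn
      rw [Nat.mul_div_cancel_left _ hp.pos]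
      exact hco.dvd_of_dvd_mul_left hqn
    have h2 : p ∣ n / q := by
      obtain ⟨t, rfl⟩ := hqn
      rw [Nat.mul_div_cancel_left _ hq.pos]
      exact hco.symm.dvd_of_dvd_mul_left hpn
    simp only [hpn, hqn, h1, h2, if_true, hm hpn, hm hqn, Nat.div_div_eq_div_mul, mul_comm q p,
      mul_right_comm n q p]
    ring
  · have h1 : ¬ q ∣ n / p := fun h => hqn (h.trans (Nat.div_dvd_of_dvd hpn))
    simp only [hpn, hqn, h1, if_true, if_false, hm hpn, mul_right_comm n q p]
    ring
  · have h2 : ¬ p ∣ n / q := fun h => hpn (h.trans (Nat.div_dvd_of_dvd hqn))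
    simp only [hpn, hqn, h2, if_true, if_false, hm hqn, mul_right_comm n q p]
    ring
  · simp only [hpn, hqn, if_false, add_zero, mul_right_comm n q p]

variable (M) in
/-- The generators of the Hecke algebra. -/
def heckeGens : Set (Module.End ℂ (S2 M)) :=
  {t | ∃ (p : ℕ) (hp : p.Prime) (hpM : ¬ p ∣ M), t = tOp hp hpM} ∪ Set.range (dia (M := M))

theorem tOp_mem_gens {p : ℕ} (hp : p.Prime) (hpM : ¬ p ∣ M) :
    tOp hp hpM ∈ heckeGens M := Or.inl ⟨p, hp, hpM, rfl⟩

theorem dia_mem_gens (d : (ZMod M)ˣ) : dia d ∈ heckeGens M := Or.inr ⟨d, rfl⟩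

theorem heckeGens_comm : ∀ x ∈ heckeGens M, ∀ y ∈ heckeGens M, x * y = y * x := by
  rintro _ (⟨p, hp, hpM, rfl⟩ | ⟨d, rfl⟩) _ (⟨q, hq, hqM, rfl⟩ | ⟨d', rfl⟩)
  · exact (tOp_comm hp hq hpM hqM).eq
  · exact (tOp_dia_comm hp hpM d').eq
  · exact (tOp_dia_comm hq hqM d).eq.symm
  · exact (dia_comm d d').eq

variable (M) in
/-- The Hecke algebra. -/
abbrev heckeRing : Subring (Module.End ℂ (S2 M)) := Subring.closure (heckeGens M)

instance : CommRing (heckeRing M) :=
  { (inferInstance : Ring (heckeRing M)) with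
    mul_comm := fun a b => (Subring.isMulCommutative_closure heckeGens_comm).is_comm.comm a b }

/-- `T_p` in the Hecke algebra. -/
def heckeT {p : ℕ} (hp : p.Prime) (hpM : ¬ p ∣ M) : heckeRing M :=
  ⟨tOp hp hpM, Subring.subset_closure (tOp_mem_gens hp hpM)⟩

/-- `⟨d⟩` in the Hecke algebra. -/
def heckeD (d : (ZMod M)ˣ) : heckeRing M :=
  ⟨dia d, Subring.subset_closure (dia_mem_gens d)⟩

/-- The period functional of an element. -/
def perDual : Additive (gam M) →+ Module.Dual ℂ (S2 M) where
  toFun γ :=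
    { toFun := fun f => periods f γ
      map_add' := fun f g => by rw [map_add, AddMonoidHom.add_apply]
      map_smul' := fun c f => by rw [map_smul]; rfl }
  map_zero' := LinearMap.ext fun f => map_zero (periods f)
  map_add' γ δ := LinearMap.ext fun f => map_add (periods f) γ δ

theorem perDual_apply (γ : Additive (gam M)) (f : S2 M) : perDual γ f = periods f γ := rfl

theorem killsEP_perDual : KillsEP (gam M) (perDual (M := M)) := fun γ hγ =>
  LinearMap.ext fun f => periods_killsEP f γ hγ

variable (M) in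
/-- The lattice of periods. -/
def perLattice : Submodule ℤ (Module.Dual ℂ (S2 M)) :=
  LinearMap.range (homProjLift (gam M) (killsEP_perDual (M := M))).toIntLinearMap

theorem perDual_mem (γ : Additive (gam M)) : perDual γ ∈ perLattice M :=
  ⟨homProj (gam M) γ, homProjLift_homProj (gam M) killsEP_perDual γ⟩

theorem exists_perDual_eq {x : Module.Dual ℂ (S2 M)} (hx : x ∈ perLattice M) :
    ∃ γ, perDual γ = x := by
  obtain ⟨v, rfl⟩ := hx
  obtain ⟨γ, rfl⟩ := homProj_surjective (gam M) v
  exact ⟨γ, (homProjLift_homProj (gam M) killsEP_perDual γ).symm⟩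

theorem perDual_comp_of_corr {ι : Type} [Fintype ι] (D : HeckeCorr (gam M) ι)
    (t : Module.End ℂ (S2 M)) (h : ∀ f, periods (t f) = D.transfer ℤ (periods f)) (γ : gam M) :
    (perDual (Additive.ofMul γ)).comp t = ∑ i, perDual (Additive.ofMul (D.move γ i)) := by
  refine LinearMap.ext fun f => ?_
  rw [LinearMap.comp_apply, perDual_apply, h, HeckeCorr.transfer_apply, LinearMap.sum_apply]
  rfl

variable (M) in
/-- The endomorphisms preserving the lattice of periods. -/
def latticeStab : Subring (Module.End ℂ (S2 M)) where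
  carrier := {t | ∀ x ∈ perLattice M, x.comp t ∈ perLattice M}
  mul_mem' {a b} ha hb x hx := hb _ (ha x hx)
  one_mem' x hx := hx
  add_mem' {a b} ha hb x hx := by rw [LinearMap.comp_add]; exact add_mem (ha x hx) (hb x hx)
  zero_mem' x _ := by rw [LinearMap.comp_zero]; exact zero_mem _
  neg_mem' {a} ha x hx := by rw [LinearMap.comp_neg]; exact neg_mem (ha x hx)

theorem heckeRing_le_latticeStab : heckeRing M ≤ latticeStab M := by
  refine Subring.closure_le.mpr ?_
  intro t ht x hx
  obtain ⟨γ, rfl⟩ := exists_perDual_eq hx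
  rcases ht with ⟨p, hp, hpM, rfl⟩ | ⟨d, rfl⟩
  · have : NeZero p := ⟨hp.ne_zero⟩
    rw [← ofMul_toMul γ,
      perDual_comp_of_corr (tCorr1 hp hpM) _ (periods_tOp hp hpM) (Additive.toMul γ)]
    exact sum_mem fun i _ => perDual_mem _
  · rw [← ofMul_toMul γ, perDual_comp_of_corr (diaCorr d) _ (periods_dia d) (Additive.toMul γ)]
    exact sum_mem fun i _ => perDual_mem _

/-- The action of the Hecke algebra on the lattice of periods. -/
def latticeAct : heckeRing M →+* Module.End ℤ (perLattice M) where
  toFun t :=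
    { toFun := fun x => ⟨x.1.comp t.1, heckeRing_le_latticeStab t.2 x.1 x.2⟩
      map_add' := fun x y => Subtype.ext (LinearMap.add_comp _ _ _)
      map_smul' := fun n x => Subtype.ext (LinearMap.smul_comp n x.1 t.1) }
  map_one' := LinearMap.ext fun x => Subtype.ext (LinearMap.comp_id _)
  map_mul' s t := by
    rw [mul_comm]
    rfl
  map_zero' := LinearMap.ext fun x => Subtype.ext (LinearMap.comp_zero _)
  map_add' s t := LinearMap.ext fun x => Subtype.ext (LinearMap.comp_add _ _ _)

theorem latticeAct_injective : Function.Injective (latticeAct (M := M)) := fun s t h => by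
  refine Subtype.ext (LinearMap.ext fun f => periods_injective (AddMonoidHom.ext fun γ => ?_))
  exact LinearMap.congr_fun
    (congrArg Subtype.val (LinearMap.congr_fun h ⟨perDual γ, perDual_mem γ⟩)) f

/-- Every character of the Hecke algebra with values in a field is afforded by a nonzero
homomorphism killing elliptic and parabolic elements. -/
theorem exists_eigenHom {k : Type} [Field k] (χ : heckeRing M →+* k) :
    ∃ φ : Additive (gam M) →+ k, φ ≠ 0 ∧ KillsEP (gam M) φ ∧
      (∀ (p : ℕ) (hp : p.Prime) (hpM : ¬ p ∣ M) (γ : gam M),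
        haveI : NeZero p := ⟨hp.ne_zero⟩
        (tCorr1 hp hpM).transfer ℤ φ (Additive.ofMul γ) =
          χ (heckeT hp hpM) * φ (Additive.ofMul γ)) ∧
      ∀ (d : (ZMod M)ˣ) (γ : gam M),
        (diaCorr d).transfer ℤ φ (Additive.ofMul γ) = χ (heckeD d) * φ (Additive.ofMul γ) := by
  have : Module.Finite ℤ (perLattice M) := by
    rw [perLattice]
    exact Module.Finite.range _
  have : Module.IsTorsionFree ℤ (perLattice M) := inferInstance
  have : Module.Free ℤ (perLattice M) := Module.free_of_finite_type_torsion_free'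
  let b := Module.finBasis ℤ (perLattice M)
  let e := LinearMap.toMatrixAlgEquiv b
  let ι : heckeRing M →+* Matrix _ _ ℤ := e.toRingEquiv.toRingHom.comp latticeAct
  obtain ⟨F, hF, hFt⟩ := GalRep.exists_compatible_functional ι
    (e.injective.comp latticeAct_injective) χ
  let u : perLattice M →+ k := F.comp b.equivFun.toLinearMap.toAddMonoidHom
  have hu : ∀ t x, u (latticeAct t x) = χ t * u x := fun t x => by
    show F (b.equivFun (latticeAct t x)) = χ t * F (b.equivFun x)
    rw [← hFt t]
    congr 1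
    exact ((LinearMap.toMatrix_mulVec_repr b b (latticeAct t) x)).symm
  let φ : Additive (gam M) →+ k :=
    { toFun := fun γ => u ⟨perDual γ, perDual_mem γ⟩
      map_zero' := by
        rw [← map_zero u]; congr 1; exact Subtype.ext (map_zero _)
      map_add' := fun γ δ => by
        rw [← map_add u]; congr 1; exact Subtype.ext (map_add _ _ _) }
  have key : ∀ {κ : Type} [Fintype κ] (D : HeckeCorr (gam M) κ) (t : heckeRing M),
      (∀ f, periods (t.1 f) = D.transfer ℤ (periods f)) → ∀ γ : gam M,
        D.transfer ℤ φ (Additive.ofMul γ) = χ t * φ (Additive.ofMul γ) := by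
    intro κ _ D t h γ
    rw [HeckeCorr.transfer_apply]
    show ∑ i, u ⟨perDual (Additive.ofMul (D.move γ i)), _⟩ = χ t * u ⟨perDual _, _⟩
    rw [← map_sum, ← hu]
    congr 1
    refine Subtype.ext ?_
    rw [Submodule.coe_sum]
    exact (perDual_comp_of_corr D t.1 h γ).symm
  refine ⟨φ, fun h => hF (AddMonoidHom.ext fun v => ?_), fun γ hγ => ?_, fun p hp hpM γ => ?_,
    fun d γ => key _ (heckeD d) (periods_dia d) γ⟩
  · obtain ⟨γ, hγ⟩ := exists_perDual_eq (b.equivFun.symm v).2
    have h' : u ⟨perDual γ, perDual_mem γ⟩ = 0 := DFunLike.congr_fun h γ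
    rw [show (⟨perDual γ, perDual_mem γ⟩ : perLattice M) = b.equivFun.symm v from
      Subtype.ext hγ] at h'
    show F v = 0
    rw [← b.equivFun.apply_symm_apply v]
    exact h'
  · show u ⟨perDual (Additive.ofMul γ), _⟩ = 0
    rw [← map_zero u]
    congr 1
    exact Subtype.ext (killsEP_perDual γ hγ)
  · have : NeZero p := ⟨hp.ne_zero⟩
    exact key _ (heckeT hp hpM) (periods_tOp hp hpM) γ

end FermatAgent.DeligneSerre.Periods
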