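import Fermat.Agent.DeligneSerre.Periods.Operators
import Fermat.Agent.Periods.WeightTwo

/-!
# Periods of cusp forms of weight two on `±Γ₁(M)`

The period map is injective, takes values in the homomorphisms killing elliptic and parabolic
elements, and carries the Hecke and diamond operators to transfer operators.
-/

set_option autoImplicit false

noncomputable section

open scoped MatrixGroups ModularForm Manifold
open CongruenceSubgroup UpperHalfPlane Filter Topology
open FermatAgent.Periods (HeckeCorr upperSet isOpen_upperSet convex_upperSet mob extC extC_apply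
  extC_coe VDecay vDecay_extC momInt hasDerivAt_momInt hasDerivAt_mob im_mob_pos mob_mul slashC
  I_mem_upperSet det_SL_pos coe_SL_smul extC_slash_eq_slashC extC_slash_SL_eq_slashC two_eq
  periodic_of_slash_T_zpow tendsto_momInt_zero_atImInfty exists_conj_of_trace_sq_eq_four)

namespace FermatAgent.DeligneSerre.Periods

open X1 (gam gamma1_le_gam)

attribute [local instance] finiteIndex_gam

variable {M : ℕ} [NeZero M]

omit [NeZero M] in
theorem T_zpow_conj_mem_gam (δ : SL(2, ℤ)) : δ * ModularGroup.T ^ (M : ℤ) * δ⁻¹ ∈ gam M := by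
  have h := ModularGroup_T_pow_mem_Gamma (M : ℤ) (M : ℤ) dvd_rfl
  rw [Int.natAbs_natCast] at h
  have h2 := (Gamma_normal M).conj_mem _ h δ
  rw [Gamma_mem] at h2
  exact gamma1_le_gam M ((Gamma1_mem _ _).mpr ⟨h2.1, h2.2.2.2, h2.2.2.1⟩)

theorem vDecay_slash_S2 (f : S2 M) (δ : SL(2, ℤ)) :
    VDecay (extC ((⇑f) ∣[(2 : ℤ)] δ)) := by
  have hT : ((⇑f) ∣[(2 : ℤ)] δ) ∣[(2 : ℤ)] (ModularGroup.T ^ (M : ℤ)) = (⇑f) ∣[(2 : ℤ)] δ := by
    rw [← SlashAction.slash_mul,
      show δ * ModularGroup.T ^ (M : ℤ) = δ * ModularGroup.T ^ (M : ℤ) * δ⁻¹ * δ by group,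
      SlashAction.slash_mul, slash_gam f (T_zpow_conj_mem_gam δ)]
  refine vDecay_extC (h := (M : ℝ)) (by exact_mod_cast Nat.pos_of_ne_zero (NeZero.ne M))
    (fun z => ?_) ((CuspFormClass.holo f).slash 2 _) (CuspFormClass.zero_at_infty_slash f δ)
  by_cases hz : 0 < z.im
  · exact periodic_of_slash_T_zpow (N := M) hT hz
  · have : (z + ((M : ℝ) : ℂ)).im ≤ 0 := by simpa using not_lt.mp hz
    simp only [Function.comp_apply]
    rw [ofComplex_apply_of_im_nonpos (not_lt.mp hz), ofComplex_apply_of_im_nonpos this]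

theorem vDecay_S2 (f : S2 M) : VDecay (extC ⇑f) := by
  simpa using vDecay_slash_S2 f 1

/-- Primitives pull back up to a constant. -/
theorem exists_sum_prim {ι : Type*} [Fintype ι] {g gT : ℂ → ℂ} (hg : VDecay g) (hgT : VDecay gT)
    (A : ι → Matrix (Fin 2) (Fin 2) ℤ) (hA : ∀ i, 0 < (A i).det)
    (hT : ∀ z ∈ FermatAgent.Periods.upperSet, gT z = ∑ i, slashC 0 (A i) g z) :
    ∃ C : ℂ, ∀ z ∈ FermatAgent.Periods.upperSet, ∑ i, momInt g 0 (mob (A i) z) = momInt gT 0 z + C := by
  refine ⟨∑ i, momInt g 0 (mob (A i) Complex.I) - momInt gT 0 Complex.I, fun z hz => ?_⟩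
  have hd : ∀ w ∈ FermatAgent.Periods.upperSet,
      HasDerivAt (fun w => ∑ i, momInt g 0 (mob (A i) w) - momInt gT 0 w) 0 w := by
    intro w hw
    have h1 := HasDerivAt.fun_sum (u := Finset.univ) fun i (_ : i ∈ Finset.univ) =>
      (hasDerivAt_momInt hg 0 (im_mob_pos (A i) (hA i) hw)).comp w
        (hasDerivAt_mob (A i) (hA i).ne' hw)
    have h2 := h1.sub (hasDerivAt_momInt hgT 0 hw)
    simp only [pow_zero, mul_one] at h2
    refine h2.congr_deriv ?_
    rw [hT w hw, sub_eq_zero]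
    refine Finset.sum_congr rfl fun i _ => ?_
    simp only [slashC, zero_add, pow_one]
    ring
  have hc := isOpen_upperSet.is_const_of_deriv_eq_zero convex_upperSet.isPreconnected
    (fun w hw => (hd w hw).differentiableAt.differentiableWithinAt)
    (fun w hw => (hd w hw).deriv) hz I_mem_upperSet
  linear_combination hc

/-- The primitive vanishing at `i∞`. -/
def prim (F : ℍ → ℂ) (τ : ℍ) : ℂ := momInt (extC F) 0 τ

theorem exists_prim_slash (f : S2 M) (δ : SL(2, ℤ)) :
    ∃ C : ℂ, ∀ τ : ℍ, prim ⇑f (δ • τ) = prim ((⇑f) ∣[(2 : ℤ)] δ) τ + C := by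
  obtain ⟨C, hC⟩ := exists_sum_prim (ι := Unit) (vDecay_S2 f) (vDecay_slash_S2 f δ)
    (fun _ => (δ : Matrix (Fin 2) (Fin 2) ℤ)) (fun _ => det_SL_pos δ) fun z hz => by
      rw [Fintype.sum_unique]
      exact (extC_slash_SL_eq_slashC two_eq (⇑f) δ hz).symm
  refine ⟨C, fun τ => ?_⟩
  have h := hC (τ : ℂ) τ.im_pos
  rw [Fintype.sum_unique, ← coe_SL_smul] at h
  exact h

/-- The period of `f` at `γ`. -/
def perFun (f : S2 M) (γ : SL(2, ℤ)) : ℂ :=
  prim ⇑f (γ • UpperHalfPlane.I) - prim ⇑f UpperHalfPlane.I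

theorem prim_smul_sub (f : S2 M) {γ : SL(2, ℤ)} (hγ : γ ∈ gam M) (τ : ℍ) :
    prim ⇑f (γ • τ) - prim ⇑f τ = perFun f γ := by
  obtain ⟨C, hC⟩ := exists_prim_slash f γ
  rw [slash_gam f hγ] at hC
  rw [perFun, hC, hC]
  ring

theorem prim_add (f g : S2 M) (τ : ℍ) :
    prim ⇑(f + g) τ = prim ⇑f τ + prim ⇑g τ :=
  FermatAgent.Periods.momInt_add (vDecay_S2 f) (vDecay_S2 g) 0 τ.im_pos

omit [NeZero M] in
theorem prim_smul (c : ℂ) (f : S2 M) (τ : ℍ) : prim ⇑(c • f) τ = c * prim ⇑f τ := by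
  rw [prim, prim, ← FermatAgent.Periods.momInt_const_mul]
  refine FermatAgent.Periods.momInt_congr (fun z _ => ?_) 0 τ.im_pos
  simp [extC]

/-- The period map. -/
def periods : S2 M →ₗ[ℂ] (Additive (gam M) →+ ℂ) where
  toFun f :=
    { toFun := fun γ => perFun f ((Additive.toMul γ : gam M) : SL(2, ℤ))
      map_zero' := by simp [perFun]
      map_add' := fun γ δ => by
        rw [toMul_add, Subgroup.coe_mul, perFun, mul_smul]
        have h := prim_smul_sub f (Additive.toMul γ : gam M).2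
          (((Additive.toMul δ : gam M) : SL(2, ℤ)) • UpperHalfPlane.I)
        simp only [perFun] at h ⊢
        linear_combination h }
  map_add' f g := AddMonoidHom.ext fun γ => by
    simp only [AddMonoidHom.coe_mk, ZeroHom.coe_mk, AddMonoidHom.add_apply, perFun, prim_add]
    ring
  map_smul' c f := AddMonoidHom.ext fun γ => by
    simp only [AddMonoidHom.coe_mk, ZeroHom.coe_mk, RingHom.id_apply, AddMonoidHom.smul_apply,
      smul_eq_mul, perFun, prim_smul]
    ring

theorem periods_apply (f : S2 M) (γ : gam M) :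
    periods f (Additive.ofMul γ) = perFun f γ := rfl

theorem periods_killsEP (f : S2 M) : ModCurveGroup.KillsEP (gam M) (periods f) := by
  intro γ hγ
  rcases hγ.lt_or_eq with hlt | heq
  · have h12 : γ ^ 12 = 1 := Subtype.ext (ModCurveGroup.pow_twelve_eq_one hlt)
    have h := congrArg (fun x => periods f (Additive.ofMul x)) h12
    simp only [ofMul_pow, map_nsmul, ofMul_one, map_zero, smul_eq_zero] at h
    exact h.resolve_left (by norm_num)
  · obtain ⟨δ, r, hr⟩ := exists_conj_of_trace_sq_eq_four (γ : SL(2, ℤ)) heq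
    obtain ⟨C, hC⟩ := exists_prim_slash f δ
    have hL : Tendsto (fun τ : ℍ => prim ⇑f (δ • τ)) atImInfty (𝓝 C) := by
      have := (tendsto_momInt_zero_atImInfty (vDecay_slash_S2 f δ)).add_const C
      rw [zero_add] at this
      exact this.congr fun τ => (hC τ).symm
    have htrans : Tendsto (fun τ : ℍ => (r : ℝ) +ᵥ τ) atImInfty atImInfty := by
      refine tendsto_comap_iff.mpr ?_
      refine (tendsto_comap : Tendsto UpperHalfPlane.im atImInfty atTop).congr fun τ => ?_
      simp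
    have h1 : Tendsto (fun _ : ℍ => periods f (Additive.ofMul γ)) atImInfty (𝓝 (C - C)) := by
      refine ((hL.comp htrans).sub hL).congr fun τ => ?_
      show prim ⇑f (δ • ((r : ℝ) +ᵥ τ)) - prim ⇑f (δ • τ) = _
      rw [periods_apply, ← hr, prim_smul_sub f γ.2]
    rw [sub_self] at h1
    exact tendsto_nhds_unique tendsto_const_nhds h1

/-- The period map is injective. -/
theorem periods_injective : Function.Injective (periods (M := M)) := by
  rw [injective_iff_map_eq_zero]
  intro f hf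
  have hinv : ∀ γ ∈ gam M, prim ⇑f ∣[(0 : ℤ)] γ = prim ⇑f := by
    intro γ hγ
    funext τ
    rw [ModularForm.SL_slash_apply, neg_zero, zpow_zero, mul_one, ← sub_eq_zero,
      prim_smul_sub f hγ]
    exact DFunLike.congr_fun hf (Additive.ofMul (⟨γ, hγ⟩ : gam M))
  let E : ModularForm (gam M) 0 :=
    { toFun := prim ⇑f
      slash_action_eq' := by
        rintro _ ⟨γ, hγ, rfl⟩
        exact hinv γ hγ
      holo' := by
        rw [UpperHalfPlane.mdifferentiable_iff]
        refine DifferentiableOn.congr (f := momInt (extC ⇑f) 0) (fun z hz =>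
          (hasDerivAt_momInt (vDecay_S2 f) 0 hz).differentiableAt.differentiableWithinAt)
          fun z hz => ?_
        simp [prim, ofComplex_apply_of_im_pos (show 0 < z.im from hz)]
      bdd_at_cusps' := fun {c} hc => by
        rw [Subgroup.IsArithmetic.isCusp_iff_isCusp_SL2Z] at hc
        rw [OnePoint.isBoundedAt_iff_forall_SL2Z hc]
        intro δ _
        obtain ⟨C, hC⟩ := exists_prim_slash f δ
        have h : Tendsto (prim ⇑f ∣[(0 : ℤ)] δ) atImInfty (𝓝 (0 + C)) := by
          refine ((tendsto_momInt_zero_atImInfty (vDecay_slash_S2 f δ)).add_const C).congr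
            fun τ => ?_
          rw [ModularForm.SL_slash_apply, neg_zero, zpow_zero, mul_one, hC]
          rfl
        exact h.isBigO_one ℝ }
  obtain ⟨c, hc⟩ := ModularForm.eq_const_of_weight_zero
    (𝒢 := (gam M : Subgroup (GL (Fin 2) ℝ))) E
  ext τ
  have h1 : ∀ w ∈ FermatAgent.Periods.upperSet, momInt (extC ⇑f) 0 w = c := fun w hw => congrFun hc ⟨w, hw⟩
  have h2 : deriv (momInt (extC ⇑f) 0) (τ : ℂ) = 0 := by
    rw [(Set.EqOn.eventuallyEq_of_mem (fun w hw => h1 w hw)
      (isOpen_upperSet.mem_nhds (show (τ : ℂ) ∈ FermatAgent.Periods.upperSet from τ.im_pos))).deriv_eq]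
    exact deriv_const _ c
  rw [(hasDerivAt_momInt (vDecay_S2 f) 0 (show (τ : ℂ) ∈ FermatAgent.Periods.upperSet from τ.im_pos)).deriv,
    pow_zero, mul_one, extC_coe] at h2
  exact h2

/-- Periods of a sum of translates are the transfer of the periods. -/
theorem periods_corr {ι : Type} [Fintype ι] (D : HeckeCorr (gam M) ι)
    (hdet : ∀ i, 0 < (D.rep i).det) (γs : ι → GL (Fin 2) ℝ)
    (hγs : ∀ i, (γs i : Matrix (Fin 2) (Fin 2) ℝ) = (D.rep i).map (Int.castRingHom ℝ))
    (f g : S2 M) (hg : (⇑g : ℍ → ℂ) = ∑ i, (⇑f) ∣[(2 : ℤ)] γs i) :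
    periods g = D.transfer ℤ (periods f) := by
  obtain ⟨C, hC⟩ := exists_sum_prim (vDecay_S2 f) (vDecay_S2 g) D.rep hdet fun z hz => by
    rw [extC_apply _ hz, hg, Finset.sum_apply]
    refine Finset.sum_congr rfl fun i _ => ?_
    rw [extC_slash_eq_slashC two_eq (⇑f) (γs i) (D.rep i) (hdet i) (hγs i) hz, extC_apply _ hz]
  refine AddMonoidHom.ext fun x => ?_
  obtain ⟨γ, rfl⟩ : ∃ γ, Additive.ofMul γ = x := ⟨Additive.toMul x, rfl⟩
  rw [periods_apply, HeckeCorr.transfer_apply]
  simp only [periods_apply]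
  have hI : (Complex.I : ℂ) ∈ FermatAgent.Periods.upperSet := I_mem_upperSet
  have key : ∀ i, momInt (extC ⇑f) 0 (mob (D.rep i) (mob (γ : SL(2, ℤ)) Complex.I)) =
      momInt (extC ⇑f) 0 (mob (D.rep (D.target γ i)) Complex.I) + perFun f (D.move γ i) := by
    intro i
    have e1 : mob (D.rep i) (mob (γ : SL(2, ℤ)) Complex.I) =
        mob (D.move γ i : SL(2, ℤ)) (mob (D.rep (D.target γ i)) Complex.I) := by
      rw [← mob_mul _ _ (det_SL_pos _).ne' hI, ← mob_mul _ _ (D.det_ne _) hI, D.move_spec]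
    have h := prim_smul_sub f (D.move γ i).2 ⟨_, im_mob_pos _ (hdet (D.target γ i)) hI⟩
    simp only [prim, coe_SL_smul] at h
    rw [e1, ← h]
    ring
  have h1 := hC _ (im_mob_pos _ (det_SL_pos (γ : SL(2, ℤ))) hI)
  have h2 := hC _ hI
  simp only [key, Finset.sum_add_distrib] at h1
  have hσ : ∑ i, momInt (extC ⇑f) 0 (mob (D.rep (D.target γ i)) Complex.I) =
      ∑ i, momInt (extC ⇑f) 0 (mob (D.rep i) Complex.I) :=
    Equiv.sum_comp (D.targetEquiv γ) fun i => momInt (extC ⇑f) 0 (mob (D.rep i) Complex.I)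
  rw [hσ, h2] at h1
  simp only [perFun, prim, coe_SL_smul, UpperHalfPlane.coe_I] at h1 ⊢
  linear_combination -h1

theorem periods_tOp {p : ℕ} [NeZero p] (hp : p.Prime) (hpM : ¬ p ∣ M) (f : S2 M) :
    periods (tOp hp hpM f) = (tCorr1 hp hpM).transfer ℤ (periods f) := by
  refine periods_corr (tCorr1 hp hpM) (fun i => ?_) (tGL hp hpM) (val_tGL hp hpM) f _
    (coe_tOp hp hpM f)
  rw [show (tCorr1 hp hpM).rep i = tRep1 hp hpM i from rfl, det_tRep1]
  exact_mod_cast hp.pos

theorem periods_dia (d : (ZMod M)ˣ) (f : S2 M) :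
    periods (dia d f) = (diaCorr d).transfer ℤ (periods f) :=
  periods_corr (diaCorr d) (fun _ => det_SL_pos _)
    (fun _ => Matrix.SpecialLinearGroup.mapGL ℝ (gamma0Lift d)) (fun _ => rfl) f _
    (by rw [Fintype.sum_unique]; rfl)

end FermatAgent.DeligneSerre.Periods
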