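import Fermat.Agent.DeligneSerre.Periods.Coords
import Fermat.Prelude.Def_FLTPrelim_Modularity
import Fermat.Prelude.Def_ModularForm_HeckeOperatorForms
import Fermat.Prelude.Thm_UpperHalfPlane_qCoeff_heckeT
import Fermat.Prelude.Thm_UpperHalfPlane_qCoeff_heckeU
import Fermat.Prelude.Thm_UpperHalfPlane_eq_of_forall_qCoeff_eq
import Fermat.Prelude.Thm_ModularForm_periodic_heckeT_comp_ofComplex
import Fermat.Prelude.Thm_ModularForm_periodic_heckeU_comp_ofComplex
import Fermat.Prelude.Thm_ModularForm_isBoundedAtImInfty_heckeT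
import Fermat.Prelude.Thm_ModularForm_isBoundedAtImInfty_heckeU

/-!
# Hecke and diamond operators on cusp forms of weight two on `±Γ₁(M)`
-/

set_option autoImplicit false

noncomputable section

open scoped MatrixGroups ModularForm Manifold
open CongruenceSubgroup UpperHalfPlane
open ModularFormClass (qCoeff)
open P2MW.S_ModularForm_heckeU_slash_eq_self_of_mem_Gamma0.ModularForm.HeckeSlashInvariance
  (heckeRep heckeU_eq_sum_zmod)
open FermatAgent.Periods (tRep upperRep diagRep heckeMatrix_eq_map heckeDiagMatrix_eq_map)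

namespace FermatAgent.DeligneSerre.Periods

open X1 (gam gam_le_gamma0)

attribute [local instance] finiteIndex_gam

/-- Cusp forms of weight two on `±Γ₁(M)`. -/
abbrev S2 (M : ℕ) : Type := CuspForm (gam M) 2

variable {M : ℕ} [NeZero M]

omit [NeZero M] in
theorem slash_gam (f : S2 M) {γ : SL(2, ℤ)} (hγ : γ ∈ gam M) : (⇑f) ∣[(2 : ℤ)] γ = ⇑f :=
  SlashInvariantFormClass.slash_action_eq f _ (Subgroup.mem_map_of_mem _ hγ)

omit [NeZero M] in
theorem one_mem_strictPeriods_gam :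
    (1 : ℝ) ∈ ((gam M).map (Matrix.SpecialLinearGroup.mapGL ℝ)).strictPeriods := by
  refine Subgroup.mem_strictPeriods_iff.2 ⟨ModularGroup.T, ?_, ?_⟩
  · exact mem_gam_of_lr (Gamma0_mem.mpr (by simp [ModularGroup.coe_T]))
      (Or.inl (by simp [lr, ModularGroup.coe_T]))
  · ext i j
    fin_cases i <;> fin_cases j <;>
      simp [ModularGroup.coe_T, Matrix.GeneralLinearGroup.upperRightHom]

omit [NeZero M] in
theorem periodic_S2 (f : S2 M) : Function.Periodic ((⇑f) ∘ ofComplex) 1 := by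
  have h := SlashInvariantFormClass.periodic_comp_ofComplex f (one_mem_strictPeriods_gam (M := M))
  simpa using h

omit [NeZero M] in
theorem bdd_S2 (f : S2 M) : IsBoundedAtImInfty ⇑f := by
  have : Fact (IsCusp OnePoint.infty ((gam M).map (Matrix.SpecialLinearGroup.mapGL ℝ))) :=
    ⟨Subgroup.isCusp_of_mem_strictPeriods one_pos one_mem_strictPeriods_gam⟩
  exact ModularFormClass.bdd_at_infty f

omit [NeZero M] in
theorem ext_qCoeff {f g : S2 M} (h : ∀ n, qCoeff (⇑f) n = qCoeff (⇑g) n) : f = g :=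
  DFunLike.coe_injective (UpperHalfPlane.eq_of_forall_qCoeff_eq (periodic_S2 f)
    (CuspFormClass.holo f) (bdd_S2 f) (periodic_S2 g) (CuspFormClass.holo g) (bdd_S2 g) h)

omit [NeZero M] in
theorem slash_conj_gam (f : S2 M) {g γ : SL(2, ℤ)} (hg : g ∈ Gamma0 M) (hγ : γ ∈ gam M) :
    ((⇑f) ∣[(2 : ℤ)] g) ∣[(2 : ℤ)] γ = (⇑f) ∣[(2 : ℤ)] g := by
  rw [← SlashAction.slash_mul, show g * γ = g * γ * g⁻¹ * g by group, SlashAction.slash_mul,
    slash_gam f (conj_mem_gam hg hγ)]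

/-- The action of an element of `Γ₀(M)`. -/
def slashForm {g : SL(2, ℤ)} (hg : g ∈ Gamma0 M) (f : S2 M) : S2 M where
  toFun := (⇑f) ∣[(2 : ℤ)] g
  slash_action_eq' := by
    rintro _ ⟨γ, hγ, rfl⟩
    exact slash_conj_gam f hg hγ
  holo' := (CuspFormClass.holo f).slash 2 _
  zero_at_cusps' {c} hc := by
    rw [Subgroup.IsArithmetic.isCusp_iff_isCusp_SL2Z] at hc
    rw [OnePoint.isZeroAt_iff_forall_SL2Z hc]
    intro γ _
    rw [← SlashAction.slash_mul]
    exact CuspFormClass.zero_at_infty_slash f _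

/-- The diamond operator `⟨d⟩`. -/
def dia (d : (ZMod M)ˣ) : S2 M →ₗ[ℂ] S2 M where
  toFun f := slashForm (gamma0Lift_mem d) f
  map_add' f g := DFunLike.coe_injective (by
    show (⇑f + ⇑g) ∣[(2 : ℤ)] gamma0Lift d =
      (⇑f ∣[(2 : ℤ)] gamma0Lift d) + (⇑g ∣[(2 : ℤ)] gamma0Lift d)
    exact SlashAction.add_slash _ _ _ _)
  map_smul' c f := DFunLike.coe_injective (by
    show ((c • ⇑f) ∣[(2 : ℤ)] gamma0Lift d) = c • ((⇑f) ∣[(2 : ℤ)] gamma0Lift d)
    exact ModularForm.SL_smul_slash _ _ _ _)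

@[simp] theorem coe_dia (d : (ZMod M)ˣ) (f : S2 M) :
    ⇑(dia d f) = (⇑f) ∣[(2 : ℤ)] gamma0Lift d := rfl

/-- `⟨d⟩ f = f ∣ g` for every `g ∈ Γ₀(M)` with lower right entry `d`. -/
theorem slash_eq_dia {g : SL(2, ℤ)} (hg : g ∈ Gamma0 M) {d : (ZMod M)ˣ} (h : lr M g = d)
    (f : S2 M) : (⇑f) ∣[(2 : ℤ)] g = ⇑(dia d f) := by
  have hm := mul_inv_mem_gam (gamma0Lift_mem d) hg (by rw [lr_gamma0Lift, h])
  rw [coe_dia, show g = g * (gamma0Lift d)⁻¹ * gamma0Lift d by group, SlashAction.slash_mul,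
    slash_gam f hm]

theorem dia_dia (d e : (ZMod M)ˣ) (f : S2 M) : dia d (dia e f) = dia (e * d) f := by
  refine DFunLike.coe_injective ?_
  rw [coe_dia, coe_dia, ← SlashAction.slash_mul]
  exact slash_eq_dia (mul_mem (gamma0Lift_mem e) (gamma0Lift_mem d))
    (by rw [lr_mul (gamma0Lift_mem e), lr_gamma0Lift, lr_gamma0Lift, Units.val_mul]) f

theorem dia_comm (d e : (ZMod M)ˣ) : Commute (dia (M := M) d) (dia e) :=
  LinearMap.ext fun f => by
    show dia d (dia e f) = dia e (dia d f)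
    rw [dia_dia, dia_dia, mul_comm]

variable {p : ℕ} (hp : p.Prime) (hpM : ¬ p ∣ M)

/-- The representatives of `T_p` as real matrices. -/
def tGL (i : Option (ZMod p)) : GL (Fin 2) ℝ :=
  Matrix.SpecialLinearGroup.mapGL ℝ (tFix hp hpM i) * heckeRep p i

theorem val_tGL (i : Option (ZMod p)) :
    (tGL hp hpM i : Matrix (Fin 2) (Fin 2) ℝ) = (tRep1 hp hpM i).map (Int.castRingHom ℝ) := by
  have h : ((heckeRep p i : GL (Fin 2) ℝ) : Matrix (Fin 2) (Fin 2) ℝ) =
      (tRep p i).map (Int.castRingHom ℝ) := by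
    cases i with
    | none => exact heckeDiagMatrix_eq_map hp.ne_zero
    | some x => exact heckeMatrix_eq_map hp.ne_zero x.val
  rw [tGL, tRep1, Units.val_mul, h, Matrix.map_mul]
  rfl

theorem tGL_mul {g δ : SL(2, ℤ)} {i j : Option (ZMod p)}
    (h : tRep1 hp hpM i * (g : Matrix (Fin 2) (Fin 2) ℤ) =
      (δ : Matrix (Fin 2) (Fin 2) ℤ) * tRep1 hp hpM j) :
    tGL hp hpM i * Matrix.SpecialLinearGroup.mapGL ℝ g =
      Matrix.SpecialLinearGroup.mapGL ℝ δ * tGL hp hpM j := by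
  refine Units.ext ?_
  have h' := congrArg (fun A : Matrix (Fin 2) (Fin 2) ℤ => A.map (Int.castRingHom ℝ)) h
  simp only [Matrix.map_mul] at h'
  rw [Units.val_mul, Units.val_mul, val_tGL, val_tGL]
  exact h'

/-- The sum of the translates under the representatives of `T_p`. -/
def tSum [NeZero p] (F : ℍ → ℂ) : ℍ → ℂ := ∑ i, F ∣[(2 : ℤ)] tGL hp hpM i

theorem exists_tPerm {g : SL(2, ℤ)} (hg : g ∈ Gamma0 M) :
    ∃ (σ : Option (ZMod p) → Option (ZMod p)) (δ : Option (ZMod p) → SL(2, ℤ)),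
      Function.Bijective σ ∧ ∀ i, δ i ∈ Gamma0 M ∧ lr M (δ i) = lr M g ∧
        tRep1 hp hpM i * (g : Matrix (Fin 2) (Fin 2) ℤ) =
          (δ i : Matrix (Fin 2) (Fin 2) ℤ) * tRep1 hp hpM (σ i) := by
  have : NeZero p := ⟨hp.ne_zero⟩
  choose σ δ h1 h2 h3 using fun i => exists_tRep1_move hp hpM hg i
  refine ⟨σ, δ, Finite.injective_iff_bijective.mp fun i j hij => ?_, fun i => ⟨h1 i, h2 i, h3 i⟩⟩
  have hj := h3 j
  rw [← hij] at hj
  refine tRep1_sep hp hpM (δ i * (δ j)⁻¹) i j (FermatAgent.Periods.matrix_mul_right_cancel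
    (C := (g : Matrix (Fin 2) (Fin 2) ℤ)) (by simp) ?_)
  rw [h3 i, mul_assoc, hj, ← mul_assoc, ← Matrix.SpecialLinearGroup.coe_mul, inv_mul_cancel_right]

theorem tSum_slash [NeZero p] (f : S2 M) {g : SL(2, ℤ)} (hg : g ∈ Gamma0 M) {d : (ZMod M)ˣ}
    (hd : lr M g = d) : tSum hp hpM (⇑f) ∣[(2 : ℤ)] g = tSum hp hpM ⇑(dia d f) := by
  obtain ⟨σ, δ, hσ, h⟩ := exists_tPerm hp hpM hg
  simp only [tSum, SlashAction.sum_slash]
  refine Fintype.sum_bijective σ hσ _ _ fun i => ?_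
  show ((⇑f) ∣[(2 : ℤ)] tGL hp hpM i) ∣[(2 : ℤ)] (Matrix.SpecialLinearGroup.mapGL ℝ g) = _
  rw [← SlashAction.slash_mul, tGL_mul hp hpM (h i).2.2, SlashAction.slash_mul]
  exact congrArg (fun F : ℍ → ℂ => F ∣[(2 : ℤ)] tGL hp hpM (σ i))
    (slash_eq_dia (h i).1 ((h i).2.1.trans hd) f)

theorem tSum_eq [NeZero p] (f : S2 M) :
    tSum hp hpM (⇑f) = ModularForm.heckeU 2 p ⇑f +
      ⇑(dia (primeUnit hp hpM) f) ∣[(2 : ℤ)] ModularForm.heckeDiagMatrix p := by
  rw [tSum, Fintype.sum_option, heckeU_eq_sum_zmod, add_comm]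
  congr 1
  · refine Finset.sum_congr rfl fun x _ => ?_
    show (⇑f) ∣[(2 : ℤ)] (Matrix.SpecialLinearGroup.mapGL ℝ (1 : SL(2, ℤ)) *
      ModularForm.heckeMatrix p x.val) = _
    rw [map_one, one_mul]
  · exact SlashAction.slash_mul _ _ _ _

/-- `T_p`. -/
def tOp : S2 M →ₗ[ℂ] S2 M :=
  haveI : NeZero p := ⟨hp.ne_zero⟩
  { toFun := fun f =>
      { toFun := tSum hp hpM ⇑f
        slash_action_eq' := by
          rintro _ ⟨γ, hγ, rfl⟩
          obtain ⟨σ, δ, hσ, h⟩ := exists_tPerm hp hpM hγ.1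
          simp only [tSum, SlashAction.sum_slash]
          refine Fintype.sum_bijective σ hσ _ _ fun i => ?_
          show ((⇑f) ∣[(2 : ℤ)] tGL hp hpM i) ∣[(2 : ℤ)] (Matrix.SpecialLinearGroup.mapGL ℝ γ) = _
          rw [← SlashAction.slash_mul, tGL_mul hp hpM (h i).2.2, SlashAction.slash_mul]
          exact congrArg (fun F : ℍ → ℂ => F ∣[(2 : ℤ)] tGL hp hpM (σ i))
            (slash_gam f (mem_gam_of_lr (h i).1 ((h i).2.1 ▸ hγ.2)))
        holo' := MDifferentiable.sum fun i _ => (CuspFormClass.holo f).slash 2 _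
        zero_at_cusps' := fun {c} hc => by
          rw [tSum_eq]
          have h1 := CuspFormClass.isZeroAt_heckeU f p hc
          have h2 := CuspFormClass.isZeroAt_heckeT (dia (primeUnit hp hpM) f) p hc
          have h3 := (CuspFormClass.isZeroAt_heckeU (dia (primeUnit hp hpM) f) p hc)
          intro g hg
          have e2 := h2 g hg
          rw [ModularForm.heckeT_eq_heckeU_add, SlashAction.add_slash] at e2
          have e1 := (h1 g hg).add e2
          rw [SlashAction.add_slash]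
          have e3 := h3 g hg
          have := e1.add e3.neg
          show Filter.ZeroAtFilter atImInfty _
          simpa [add_assoc, add_comm, add_left_comm] using this }
    map_add' := fun f g => DFunLike.coe_injective (by
      show tSum hp hpM (⇑f + ⇑g) = tSum hp hpM ⇑f + tSum hp hpM ⇑g
      simp only [tSum, SlashAction.add_slash]
      exact Finset.sum_add_distrib)
    map_smul' := fun c f => DFunLike.coe_injective (by
      show tSum hp hpM (c • ⇑f) = c • tSum hp hpM ⇑f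
      simp only [tSum, Finset.smul_sum]
      refine Finset.sum_congr rfl fun i _ => ?_
      rw [ModularForm.smul_slash]
      congr 1
      have hdet : (0 : ℝ) < (tGL hp hpM i : Matrix (Fin 2) (Fin 2) ℝ).det := by
        rw [val_tGL, ← RingHom.mapMatrix_apply, ← RingHom.map_det, det_tRep1]
        simpa using hp.pos
      simp [UpperHalfPlane.σ, if_pos hdet]) }

theorem coe_tOp [NeZero p] (f : S2 M) : ⇑(tOp hp hpM f) = tSum hp hpM ⇑f := rfl

theorem tOp_dia_comm (d : (ZMod M)ˣ) : Commute (tOp hp hpM) (dia d) :=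
  LinearMap.ext fun f => by
    have : NeZero p := ⟨hp.ne_zero⟩
    refine DFunLike.coe_injective ?_
    show tSum hp hpM ⇑(dia d f) = tSum hp hpM (⇑f) ∣[(2 : ℤ)] gamma0Lift d
    rw [tSum_slash hp hpM f (gamma0Lift_mem d) (lr_gamma0Lift d)]

theorem qCoeff_add_of {F G : ℍ → ℂ} (hFp : Function.Periodic (F ∘ ofComplex) 1)
    (hFh : MDiff F) (hFb : IsBoundedAtImInfty F) (hGp : Function.Periodic (G ∘ ofComplex) 1)
    (hGh : MDiff G) (hGb : IsBoundedAtImInfty G) (n : ℕ) :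
    qCoeff (F + G) n = qCoeff F n + qCoeff G n := by
  have h : ∀ {H : ℍ → ℂ}, Function.Periodic (H ∘ ofComplex) 1 → MDiff H → IsBoundedAtImInfty H →
      AnalyticAt ℂ (cuspFunction 1 H) 0 := fun h1 h2 h3 =>
    analyticAt_cuspFunction_zero one_pos (by simpa using h1) h2 h3
  simp only [ModularFormClass.qCoeff, qExpansion_add (h hFp hFh hFb) (h hGp hGh hGb), map_add]

/-- The coefficients of `T_p f`. -/
theorem qCoeff_tOp (f : S2 M) (n : ℕ) :
    qCoeff (⇑(tOp hp hpM f)) n = qCoeff (⇑f) (n * p) +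
      if p ∣ n then (p : ℂ) * qCoeff (⇑(dia (primeUnit hp hpM) f)) (n / p) else 0 := by
  have : NeZero p := ⟨hp.ne_zero⟩
  set g := dia (primeUnit hp hpM) f with hgdef
  have e : ⇑(tOp hp hpM f) + ModularForm.heckeU 2 p ⇑g =
      ModularForm.heckeU 2 p ⇑f + ModularForm.heckeT 2 p ⇑g := by
    rw [coe_tOp, tSum_eq, ← hgdef, ModularForm.heckeT_eq_heckeU_add]
    abel
  have hU : ∀ h : S2 M, Function.Periodic (ModularForm.heckeU 2 p ⇑h ∘ ofComplex) 1 ∧
      MDiff (ModularForm.heckeU 2 p ⇑h) ∧ IsBoundedAtImInfty (ModularForm.heckeU 2 p ⇑h) :=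
    fun h => ⟨ModularForm.periodic_heckeU_comp_ofComplex (periodic_S2 h) 2 p,
      ModularForm.mdifferentiable_heckeU (CuspFormClass.holo h) 2 p,
      ModularForm.isBoundedAtImInfty_heckeU (bdd_S2 h) 2 p⟩
  have e' := congrArg (fun F => qCoeff F n) e
  simp only [qCoeff_add_of (periodic_S2 (tOp hp hpM f)) (CuspFormClass.holo (tOp hp hpM f))
    (bdd_S2 (tOp hp hpM f)) (hU g).1 (hU g).2.1 (hU g).2.2,
    qCoeff_add_of (hU f).1 (hU f).2.1 (hU f).2.2
    (ModularForm.periodic_heckeT_comp_ofComplex (periodic_S2 g) 2 p)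
    (ModularForm.mdifferentiable_heckeT (CuspFormClass.holo g) 2 p)
    (ModularForm.isBoundedAtImInfty_heckeT (bdd_S2 g) 2 p),
    UpperHalfPlane.qCoeff_heckeU (periodic_S2 f) (CuspFormClass.holo f) (bdd_S2 f) 2 hp.ne_zero,
    UpperHalfPlane.qCoeff_heckeU (periodic_S2 g) (CuspFormClass.holo g) (bdd_S2 g) 2 hp.ne_zero,
    UpperHalfPlane.qCoeff_heckeT (periodic_S2 g) (CuspFormClass.holo g) (bdd_S2 g) 2 hp.ne_zero,
    ModularForm.coeffHeckeU_apply, ModularForm.coeffHeckeT_apply] at e'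
  norm_num at e'
  linear_combination e'

end FermatAgent.DeligneSerre.Periods
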